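/-
Shared definitions for the modular-symbols proof of S22 (Hecke algebra is a finite ℤ-module).
Everything lives in weight 2: for a cusp form `f` of weight `k = w + 2`, `g ∈ SL(2,ℤ)` and a
polynomial function `φ` of degree `≤ w` we consider the holomorphic function `H = (f ∣[k] g) * φ`.
-/
import Mathlib
import Fermat.Prelude.Def_CuspForm_HeckeAlgebra

set_option autoImplicit false

noncomputable section

namespace Fermat.Agent.Lib.Helper3.MS

open UpperHalfPlane ModularForm Complex Filter Topology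
open scoped MatrixGroups Manifold

/-- Integer `2 × 2` matrices with positive determinant, as a submonoid. -/
def PosMat : Submonoid (Matrix (Fin 2) (Fin 2) ℤ) where
  carrier := {M | 0 < M.det}
  mul_mem' := by
    intro a b ha hb
    simp only [Set.mem_ofPred_eq, Matrix.det_mul] at *
    positivity
  one_mem' := by simp

theorem posMat_det_pos (δ : PosMat) : 0 < (δ : Matrix (Fin 2) (Fin 2) ℤ).det := δ.2

theorem posMat_det_map_ne_zero (δ : PosMat) :
    ((δ : Matrix (Fin 2) (Fin 2) ℤ).map (Int.cast : ℤ → ℝ)).det ≠ 0 := by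
  have h : ((δ : Matrix (Fin 2) (Fin 2) ℤ).map (Int.cast : ℤ → ℝ)).det
      = (((δ : Matrix (Fin 2) (Fin 2) ℤ).det : ℤ) : ℝ) := by
    have := (Int.castRingHom ℝ).map_det (δ : Matrix (Fin 2) (Fin 2) ℤ)
    simpa [RingHom.mapMatrix_apply] using this.symm
  rw [h]
  exact_mod_cast (posMat_det_pos δ).ne'

/-- The image of an integer matrix with positive determinant in `GL (Fin 2) ℝ`. -/
def toGL : PosMat →* GL (Fin 2) ℝ where
  toFun δ := Matrix.GeneralLinearGroup.mkOfDetNeZero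
    ((δ : Matrix (Fin 2) (Fin 2) ℤ).map (Int.cast : ℤ → ℝ)) (posMat_det_map_ne_zero δ)
  map_one' := by
    apply Matrix.GeneralLinearGroup.ext
    intro i j
    simp [Matrix.GeneralLinearGroup.mkOfDetNeZero, Matrix.one_apply]
  map_mul' := by
    intro a b
    apply Matrix.GeneralLinearGroup.ext
    intro i j
    simp [Matrix.GeneralLinearGroup.mkOfDetNeZero, Matrix.mul_apply, Fin.sum_univ_two]

@[simp] theorem toGL_val (δ : PosMat) :
    ((toGL δ : GL (Fin 2) ℝ) : Matrix (Fin 2) (Fin 2) ℝ)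
      = (δ : Matrix (Fin 2) (Fin 2) ℤ).map (Int.cast : ℤ → ℝ) := rfl

theorem toGL_apply (δ : PosMat) (i j : Fin 2) :
    (toGL δ : GL (Fin 2) ℝ) i j = ((δ : Matrix (Fin 2) (Fin 2) ℤ) i j : ℝ) := rfl

theorem toGL_det (δ : PosMat) :
    ((toGL δ).det : ℝ) = (((δ : Matrix (Fin 2) (Fin 2) ℤ).det : ℤ) : ℝ) := by
  rw [Matrix.GeneralLinearGroup.val_det_apply, toGL_val]
  have := (Int.castRingHom ℝ).map_det (δ : Matrix (Fin 2) (Fin 2) ℤ)
  simpa [RingHom.mapMatrix_apply] using this.symm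

theorem toGL_det_pos (δ : PosMat) : 0 < ((toGL δ).det : ℝ) := by
  rw [toGL_det]; exact_mod_cast (posMat_det_pos δ)

/-- `SL(2,ℤ)` inside `PosMat`. -/
def SLtoPos : SL(2, ℤ) →* PosMat where
  toFun γ := ⟨(γ : Matrix (Fin 2) (Fin 2) ℤ), by
    show 0 < (γ : Matrix (Fin 2) (Fin 2) ℤ).det
    rw [γ.det_coe]; exact one_pos⟩
  map_one' := by ext; simp
  map_mul' := by intro a b; ext; simp

@[simp] theorem SLtoPos_coe (γ : SL(2, ℤ)) :
    ((SLtoPos γ : PosMat) : Matrix (Fin 2) (Fin 2) ℤ) = (γ : Matrix (Fin 2) (Fin 2) ℤ) := rfl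

theorem toGL_SLtoPos (γ : SL(2, ℤ)) : toGL (SLtoPos γ) = (γ : GL (Fin 2) ℝ) := by
  apply Matrix.GeneralLinearGroup.ext
  intro i j
  simp [toGL_apply]

/-- The adjugate of a positive-determinant integer matrix. -/
def adjPos (δ : PosMat) : PosMat :=
  ⟨(δ : Matrix (Fin 2) (Fin 2) ℤ).adjugate, by
    show 0 < ((δ : Matrix (Fin 2) (Fin 2) ℤ).adjugate).det
    rw [Matrix.det_adjugate]; simpa using (posMat_det_pos δ)⟩

/-- Exponential decay at `i∞` (uniformly in the real part). -/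
def ExpDecay (F : ℍ → ℂ) : Prop :=
  ∃ c : ℝ, 0 < c ∧ F =O[atImInfty] fun τ => Real.exp (-c * τ.im)

/-- Exponential decay at `i∞` on every vertical strip. -/
def StripDecay (H : ℍ → ℂ) : Prop :=
  ∀ A : ℝ, ∃ B C c : ℝ, 0 < c ∧
    ∀ τ : ℍ, |τ.re| ≤ A → B ≤ τ.im → ‖H τ‖ ≤ C * Real.exp (-c * τ.im)

/-- Holomorphic functions all of whose weight-`k` translates by integer matrices of positive
determinant decay exponentially at `i∞` ("cuspidal at every cusp"). -/
structure IsCuspidal (k : ℤ) (F : ℍ → ℂ) : Prop where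
  holo : MDifferentiable 𝓘(ℂ) 𝓘(ℂ) F
  decay : ∀ δ : PosMat, ExpDecay (F ∣[k] toGL δ)

/-- "Cuspidal differentials": holomorphic `H` all of whose weight-2 translates decay on strips. -/
structure IsDiff (H : ℍ → ℂ) : Prop where
  holo : MDifferentiable 𝓘(ℂ) 𝓘(ℂ) H
  decay : ∀ δ : PosMat, StripDecay (H ∣[(2 : ℤ)] toGL δ)

/-- `G` is a primitive of `H` on the upper half plane. -/
def IsPrim (G H : ℍ → ℂ) : Prop :=
  ∀ τ : ℍ, HasDerivAt (G ∘ ofComplex) (H τ) (τ : ℂ)

/-- `G` tends to zero along every vertical line. -/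
def VertZero (G : ℍ → ℂ) : Prop :=
  ∀ x : ℝ, Tendsto (fun t : ℝ => G (ofComplex ((x : ℂ) + (t : ℂ) * Complex.I))) atTop (𝓝 0)

/-- The primitive of `H` vanishing at `i∞`: `G(z) = -∫_z^{i∞} H`. -/
def Ginf (H : ℍ → ℂ) (z : ℍ) : ℂ :=
  -(Complex.I * ∫ t in Set.Ioi (0 : ℝ), H (ofComplex ((z : ℂ) + (t : ℂ) * Complex.I)))

/-- The period `∫_{i∞}^{γ i∞} H`. -/
def period (H : ℍ → ℂ) (γ : SL(2, ℤ)) : ℂ :=
  Ginf H (γ • UpperHalfPlane.I) - Ginf (H ∣[(2 : ℤ)] γ) UpperHalfPlane.I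

/-- Weight `-w` action without determinant factor on functions (used for polynomial functions). -/
def polyAct (w : ℕ) (δ : PosMat) (φ : ℍ → ℂ) : ℍ → ℂ :=
  fun z => denom (toGL δ) z ^ w * φ (toGL δ • z)

/-- Polynomial functions of degree at most `w` on the upper half plane. -/
def IsPolyFun (w : ℕ) (φ : ℍ → ℂ) : Prop :=
  ∃ p : Polynomial ℂ, p.natDegree ≤ w ∧ ∀ z : ℍ, φ z = p.eval (z : ℂ)

/-- Polynomial functions of degree at most `w` with integer coefficients. -/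
def IsIntPolyFun (w : ℕ) (φ : ℍ → ℂ) : Prop :=
  ∃ p : Polynomial ℤ, p.natDegree ≤ w ∧ ∀ z : ℍ, φ z = Polynomial.aeval (z : ℂ) p

end Fermat.Agent.Lib.Helper3.MS

end
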