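/-
S22 (modular symbols): slash formulas for `PosMat`, the polynomial action, and products
`cuspidal × polynomial`.
-/
import Mathlib
import Fermat.Agent.Lib.Helper3.S22Defs

set_option autoImplicit false

noncomputable section

namespace Fermat.Agent.Lib.Helper3.MS

open UpperHalfPlane ModularForm Complex Filter Topology
open scoped MatrixGroups Manifold

/-! ### Basic formulas for `toGL` -/

theorem σ_toGL (δ : PosMat) : UpperHalfPlane.σ (toGL δ) = .refl ℝ ℂ := by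
  rw [UpperHalfPlane.σ, if_pos (toGL_det_pos δ)]

theorem coe_toGL_smul (δ : PosMat) (z : ℍ) :
    ((toGL δ • z : ℍ) : ℂ) = num (toGL δ) z / denom (toGL δ) z :=
  coe_smul_of_det_pos (toGL_det_pos δ) z

theorem denom_toGL (δ : PosMat) (z : ℂ) :
    denom (toGL δ) z = ((δ : Matrix (Fin 2) (Fin 2) ℤ) 1 0 : ℂ) * z
      + ((δ : Matrix (Fin 2) (Fin 2) ℤ) 1 1 : ℂ) := by
  simp [denom, toGL_apply]

theorem num_toGL (δ : PosMat) (z : ℂ) :
    num (toGL δ) z = ((δ : Matrix (Fin 2) (Fin 2) ℤ) 0 0 : ℂ) * z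
      + ((δ : Matrix (Fin 2) (Fin 2) ℤ) 0 1 : ℂ) := by
  simp [num, toGL_apply]

theorem denom_toGL_mul (δ δ' : PosMat) (z : ℍ) :
    denom (toGL (δ * δ')) z = denom (toGL δ) (toGL δ' • z : ℍ) * denom (toGL δ') z := by
  rw [map_mul, denom_cocycle_σ, σ_toGL]
  rfl

/-- The determinant as a complex number. -/
def detC (δ : PosMat) : ℂ := (((δ : Matrix (Fin 2) (Fin 2) ℤ).det : ℤ) : ℂ)

theorem detC_ne_zero (δ : PosMat) : detC δ ≠ 0 := by
  unfold detC
  exact_mod_cast (posMat_det_pos δ).ne'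

theorem detC_mul (δ δ' : PosMat) : detC (δ * δ') = detC δ * detC δ' := by
  unfold detC
  rw [Submonoid.coe_mul, Matrix.det_mul]
  push_cast
  ring

theorem slash_toGL_apply (k : ℤ) (F : ℍ → ℂ) (δ : PosMat) (z : ℍ) :
    (F ∣[k] toGL δ) z = F (toGL δ • z) * detC δ ^ (k - 1) * denom (toGL δ) z ^ (-k) := by
  rw [ModularForm.slash_apply, σ_toGL, toGL_det, abs_of_pos (by exact_mod_cast posMat_det_pos δ)]
  simp [detC]

theorem smul_slash_toGL (k : ℤ) (c : ℂ) (F : ℍ → ℂ) (δ : PosMat) :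
    (c • F) ∣[k] toGL δ = c • (F ∣[k] toGL δ) := by
  rw [ModularForm.smul_slash, σ_toGL]
  rfl

/-! ### The polynomial action -/

theorem polyAct_apply (w : ℕ) (δ : PosMat) (φ : ℍ → ℂ) (z : ℍ) :
    polyAct w δ φ z = denom (toGL δ) z ^ w * φ (toGL δ • z) := rfl

theorem polyAct_mul (w : ℕ) (δ δ' : PosMat) (φ : ℍ → ℂ) :
    polyAct w (δ * δ') φ = polyAct w δ' (polyAct w δ φ) := by
  funext z
  simp only [polyAct_apply]
  rw [denom_toGL_mul, mul_pow, map_mul, mul_smul]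
  ring

theorem polyAct_one (w : ℕ) (φ : ℍ → ℂ) : polyAct w 1 φ = φ := by
  funext z
  simp [polyAct_apply, denom_one]

theorem polyAct_add (w : ℕ) (δ : PosMat) (φ ψ : ℍ → ℂ) :
    polyAct w δ (φ + ψ) = polyAct w δ φ + polyAct w δ ψ := by
  funext z
  simp [polyAct_apply, mul_add]

theorem polyAct_smul (w : ℕ) (δ : PosMat) (c : ℂ) (φ : ℍ → ℂ) :
    polyAct w δ (c • φ) = c • polyAct w δ φ := by
  funext z
  simp [polyAct_apply]
  ring

/-- General product formula: weight `2 = k + (-w)`. -/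
theorem mul_slash_two_toGL {k : ℤ} {w : ℕ} (hk : k = w + 2) (F ψ : ℍ → ℂ) (δ : PosMat) :
    (F * ψ) ∣[(2 : ℤ)] toGL δ
      = (detC δ ^ (-(w : ℤ))) • ((F ∣[k] toGL δ) * polyAct w δ ψ) := by
  funext z
  have hD := detC_ne_zero δ
  have hden := denom_ne_zero (toGL δ) z
  simp only [slash_toGL_apply, Pi.mul_apply, Pi.smul_apply, polyAct_apply, smul_eq_mul]
  subst hk
  have e1 : detC δ ^ ((2 : ℤ) - 1) = detC δ ^ (-(w : ℤ)) * detC δ ^ ((w : ℤ) + 2 - 1) := by
    rw [← zpow_add₀ hD]; congr 1; ring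
  have e2 : denom (toGL δ) z ^ (-(2 : ℤ))
      = denom (toGL δ) z ^ (-((w : ℤ) + 2)) * denom (toGL δ) z ^ w := by
    rw [← zpow_natCast, ← zpow_add₀ hden]; congr 1; ring
  rw [e1, e2]
  ring

theorem mul_slash_two_SL {k : ℤ} {w : ℕ} (hk : k = w + 2) (F φ : ℍ → ℂ) (γ : SL(2, ℤ)) :
    (F * φ) ∣[(2 : ℤ)] γ = (F ∣[k] γ) * polyAct w (SLtoPos γ) φ := by
  rw [ModularForm.SL_slash, ModularForm.SL_slash, ← toGL_SLtoPos, mul_slash_two_toGL hk]
  have : detC (SLtoPos γ) = 1 := by simp [detC]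
  rw [this, one_zpow, one_smul]

/-! ### Scalar matrices and the adjugate -/

theorem toGL_smul_of_scalar (δ : PosMat) (D : ℤ)
    (h : (δ : Matrix (Fin 2) (Fin 2) ℤ) = D • (1 : Matrix (Fin 2) (Fin 2) ℤ)) (z : ℍ) :
    toGL δ • z = z := by
  have hD : (D : ℂ) ≠ 0 := by
    have h1 := posMat_det_pos δ
    rw [h] at h1
    intro h0
    have : D = 0 := by exact_mod_cast h0
    simp [this] at h1
  apply UpperHalfPlane.ext
  rw [coe_toGL_smul, num_toGL, denom_toGL, h]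
  simp
  field_simp

theorem denom_of_scalar (δ : PosMat) (D : ℤ)
    (h : (δ : Matrix (Fin 2) (Fin 2) ℤ) = D • (1 : Matrix (Fin 2) (Fin 2) ℤ)) (z : ℂ) :
    denom (toGL δ) z = D := by
  rw [denom_toGL, h]
  simp

theorem polyAct_of_scalar (w : ℕ) (δ : PosMat) (D : ℤ)
    (h : (δ : Matrix (Fin 2) (Fin 2) ℤ) = D • (1 : Matrix (Fin 2) (Fin 2) ℤ)) (φ : ℍ → ℂ) :
    polyAct w δ φ = ((D : ℂ) ^ w) • φ := by
  funext z
  rw [polyAct_apply, toGL_smul_of_scalar δ D h, denom_of_scalar δ D h]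
  rfl

theorem adjPos_mul_self (β : PosMat) :
    ((adjPos β * β : PosMat) : Matrix (Fin 2) (Fin 2) ℤ)
      = ((β : Matrix (Fin 2) (Fin 2) ℤ).det) • (1 : Matrix (Fin 2) (Fin 2) ℤ) := by
  rw [Submonoid.coe_mul]
  exact Matrix.adjugate_mul _

/-- The key integrality formula: slashing `F` in weight `k` by `β` and multiplying by `φ` is the
weight-2 slash of `F` times the polynomial `φ` acted on by the adjugate of `β`. -/
theorem slash_mul_eq_slash_two {k : ℤ} {w : ℕ} (hk : k = w + 2) (F φ : ℍ → ℂ) (β : PosMat) :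
    (F ∣[k] toGL β) * φ = (F * polyAct w (adjPos β) φ) ∣[(2 : ℤ)] toGL β := by
  rw [mul_slash_two_toGL hk, ← polyAct_mul,
    polyAct_of_scalar w (adjPos β * β) _ (adjPos_mul_self β) φ]
  have hD := detC_ne_zero β
  funext z
  simp only [Pi.mul_apply, Pi.smul_apply, smul_eq_mul]
  have : detC β ^ (-(w : ℤ)) * detC β ^ w = 1 := by
    rw [← zpow_natCast, ← zpow_add₀ hD]; simp
  have e : ((((β : Matrix (Fin 2) (Fin 2) ℤ).det : ℤ) : ℂ)) = detC β := rfl
  rw [e]
  calc (F ∣[k] toGL β) z * φ z = (detC β ^ (-(w : ℤ)) * detC β ^ w) * ((F ∣[k] toGL β) z * φ z) := by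
        rw [this, one_mul]
    _ = _ := by ring

/-! ### Polynomial functions are stable under the action -/

open Polynomial in
/-- Polynomial functions with coefficients in an arbitrary `ℂ`-algebra-source `R`. -/
def IsPolyFunOver (R : Type*) [CommRing R] [Algebra R ℂ] (w : ℕ) (φ : ℍ → ℂ) : Prop :=
  ∃ p : Polynomial R, p.natDegree ≤ w ∧ ∀ z : ℍ, φ z = Polynomial.aeval (z : ℂ) p

theorem isPolyFun_iff_over {w : ℕ} {φ : ℍ → ℂ} : IsPolyFun w φ ↔ IsPolyFunOver ℂ w φ := by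
  unfold IsPolyFun IsPolyFunOver
  simp only [Polynomial.coe_aeval_eq_eval]

theorem isIntPolyFun_iff_over {w : ℕ} {φ : ℍ → ℂ} : IsIntPolyFun w φ ↔ IsPolyFunOver ℤ w φ :=
  Iff.rfl

open Polynomial in
/-- The polynomial `∑ p_j (aX+b)^j (cX+d)^(w-j)`. -/
def actPoly {R : Type*} [CommRing R] (w : ℕ) (a b c d : R) (p : Polynomial R) : Polynomial R :=
  ∑ j ∈ Finset.range (w + 1), C (p.coeff j) * (C a * X + C b) ^ j * (C c * X + C d) ^ (w - j)

open Polynomial in
theorem natDegree_actPoly_le {R : Type*} [CommRing R] (w : ℕ) (a b c d : R) (p : Polynomial R) :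
    (actPoly w a b c d p).natDegree ≤ w := by
  unfold actPoly
  apply Polynomial.natDegree_sum_le_of_forall_le
  intro j hj
  have hj' : j ≤ w := Nat.lt_succ_iff.mp (Finset.mem_range.mp hj)
  calc (C (p.coeff j) * (C a * X + C b) ^ j * (C c * X + C d) ^ (w - j)).natDegree
      ≤ (C (p.coeff j) * (C a * X + C b) ^ j).natDegree + ((C c * X + C d) ^ (w - j)).natDegree :=
        natDegree_mul_le
    _ ≤ ((C (p.coeff j)).natDegree + ((C a * X + C b) ^ j).natDegree)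
          + ((C c * X + C d) ^ (w - j)).natDegree := by
        gcongr; exact natDegree_mul_le
    _ ≤ (0 + j * 1) + (w - j) * 1 := by
        gcongr
        · simp
        · exact (natDegree_pow_le).trans (by gcongr; exact natDegree_linear_le)
        · exact (natDegree_pow_le).trans (by gcongr; exact natDegree_linear_le)
    _ = w := by omega

open Polynomial in
theorem aeval_actPoly {R : Type*} [CommRing R] [Algebra R ℂ] (w : ℕ) (a b c d : R)
    (p : Polynomial R) (hp : p.natDegree ≤ w) (z : ℂ)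
    (hz : algebraMap R ℂ c * z + algebraMap R ℂ d ≠ 0) :
    aeval z (actPoly w a b c d p)
      = (algebraMap R ℂ c * z + algebraMap R ℂ d) ^ w *
        aeval ((algebraMap R ℂ a * z + algebraMap R ℂ b) /
          (algebraMap R ℂ c * z + algebraMap R ℂ d)) p := by
  unfold actPoly
  rw [Polynomial.aeval_eq_sum_range' (Nat.lt_succ_of_le hp), map_sum, Finset.mul_sum]
  apply Finset.sum_congr rfl
  intro j hj
  have hj' : j ≤ w := Nat.lt_succ_iff.mp (Finset.mem_range.mp hj)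
  simp only [map_mul, map_pow, map_add, aeval_C, aeval_X, Algebra.smul_def]
  have : (algebraMap R ℂ c * z + algebraMap R ℂ d) ^ w
      = (algebraMap R ℂ c * z + algebraMap R ℂ d) ^ j *
        (algebraMap R ℂ c * z + algebraMap R ℂ d) ^ (w - j) := by
    rw [← pow_add]; congr 1; omega
  rw [this, div_pow]
  generalize algebraMap R ℂ c * z + algebraMap R ℂ d = D at hz
  have hz' : D ^ j ≠ 0 := pow_ne_zero _ hz
  field_simp

theorem IsPolyFunOver.polyAct {R : Type*} [CommRing R] [Algebra R ℂ] {w : ℕ} {φ : ℍ → ℂ}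
    (h : IsPolyFunOver R w φ) (δ : PosMat) : IsPolyFunOver R w (polyAct w δ φ) := by
  obtain ⟨p, hp, hφ⟩ := h
  refine ⟨actPoly w (((δ : Matrix (Fin 2) (Fin 2) ℤ) 0 0 : ℤ) : R)
    (((δ : Matrix (Fin 2) (Fin 2) ℤ) 0 1 : ℤ) : R) (((δ : Matrix (Fin 2) (Fin 2) ℤ) 1 0 : ℤ) : R)
    (((δ : Matrix (Fin 2) (Fin 2) ℤ) 1 1 : ℤ) : R) p, natDegree_actPoly_le _ _ _ _ _ _, ?_⟩
  intro z
  have hden := denom_ne_zero (toGL δ) z
  rw [denom_toGL] at hden
  rw [aeval_actPoly w _ _ _ _ p hp (z : ℂ) (by simpa using hden), polyAct_apply, hφ,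
    coe_toGL_smul, num_toGL, denom_toGL]
  simp

theorem IsPolyFun.polyAct {w : ℕ} {φ : ℍ → ℂ} (h : IsPolyFun w φ) (δ : PosMat) :
    IsPolyFun w (polyAct w δ φ) :=
  isPolyFun_iff_over.mpr ((isPolyFun_iff_over.mp h).polyAct δ)

theorem IsIntPolyFun.polyAct {w : ℕ} {φ : ℍ → ℂ} (h : IsIntPolyFun w φ) (δ : PosMat) :
    IsIntPolyFun w (polyAct w δ φ) :=
  IsPolyFunOver.polyAct (R := ℤ) h δ

theorem IsIntPolyFun.isPolyFun {w : ℕ} {φ : ℍ → ℂ} (h : IsIntPolyFun w φ) : IsPolyFun w φ := by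
  obtain ⟨p, hp, hφ⟩ := h
  refine ⟨p.map (algebraMap ℤ ℂ), (Polynomial.natDegree_map_le).trans hp, fun z => ?_⟩
  rw [hφ, Polynomial.eval_map, Polynomial.aeval_def]

theorem isIntPolyFun_monomial {w j : ℕ} (hj : j ≤ w) :
    IsIntPolyFun w (fun z : ℍ => (z : ℂ) ^ j) :=
  ⟨Polynomial.X ^ j, by simpa using hj, fun z => by simp⟩

/-- Integer polynomial functions are integer combinations of monomials. -/
theorem IsIntPolyFun.eq_sum {w : ℕ} {φ : ℍ → ℂ} (h : IsIntPolyFun w φ) :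
    ∃ c : ℕ → ℤ, φ = ∑ j ∈ Finset.range (w + 1), (c j : ℂ) • (fun z : ℍ => (z : ℂ) ^ j) := by
  obtain ⟨p, hp, hφ⟩ := h
  refine ⟨fun j => p.coeff j, ?_⟩
  funext z
  rw [hφ, Polynomial.aeval_eq_sum_range' (Nat.lt_succ_of_le hp), Finset.sum_apply]
  apply Finset.sum_congr rfl
  intro j _
  simp [Algebra.smul_def]

theorem isPolyFun_sub_pow (w : ℕ) (c : ℂ) : IsPolyFun w (fun z : ℍ => ((z : ℂ) - c) ^ w) :=
  ⟨(Polynomial.X - Polynomial.C c) ^ w, by
    refine (Polynomial.natDegree_pow_le).trans ?_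
    rw [Polynomial.natDegree_X_sub_C, mul_one], fun z => by simp⟩

end Fermat.Agent.Lib.Helper3.MS

end
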