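import Mathlib
import Fermat.Agent.Lib.Helper3.S22Poly

set_option autoImplicit false

noncomputable section

namespace Fermat.Agent.Lib.Helper3.MS

open UpperHalfPlane ModularForm Complex Filter Topology
open scoped MatrixGroups Manifold

theorem ExpDecay.exists_bound {F : ℍ → ℂ} (h : ExpDecay F) :
    ∃ c B C : ℝ, 0 < c ∧ ∀ τ : ℍ, B ≤ τ.im → ‖F τ‖ ≤ C * Real.exp (-c * τ.im) := by
  obtain ⟨c, hc, hO⟩ := h
  rw [Asymptotics.isBigO_iff] at hO
  obtain ⟨C, hC⟩ := hO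
  rw [Filter.Eventually, atImInfty_mem] at hC
  obtain ⟨B, hB⟩ := hC
  refine ⟨c, B, C, hc, fun τ hτ => ?_⟩
  have := hB τ hτ
  simpa [Real.norm_eq_abs, abs_of_pos (Real.exp_pos _)] using this

theorem pow_le_const_mul_exp (w : ℕ) {c : ℝ} (hc : 0 < c) {t : ℝ} (ht : 0 ≤ t) :
    t ^ w ≤ (w.factorial * (1 / c) ^ w) * Real.exp (c * t) := by
  have h1 := Real.pow_div_factorial_le_exp (x := c * t) (by positivity) w
  have hw : (0 : ℝ) < w.factorial := by positivity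
  rw [div_le_iff₀ hw] at h1
  have : t ^ w = (1 / c) ^ w * (c * t) ^ w := by
    rw [← mul_pow]; congr 1; field_simp
  rw [this]
  calc (1 / c) ^ w * (c * t) ^ w ≤ (1 / c) ^ w * (Real.exp (c * t) * w.factorial) := by
        gcongr
    _ = _ := by ring

theorem IsPolyFun.norm_le {w : ℕ} {φ : ℍ → ℂ} (h : IsPolyFun w φ) :
    ∃ K : ℝ, 0 ≤ K ∧ ∀ z : ℍ, 1 ≤ ‖(z : ℂ)‖ → ‖φ z‖ ≤ K * ‖(z : ℂ)‖ ^ w := by
  obtain ⟨p, hp, hφ⟩ := h
  refine ⟨∑ j ∈ Finset.range (w + 1), ‖p.coeff j‖, by positivity, fun z hz => ?_⟩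
  rw [hφ, Polynomial.eval_eq_sum_range' (Nat.lt_succ_of_le hp), Finset.sum_mul]
  refine (norm_sum_le _ _).trans (Finset.sum_le_sum fun j hj => ?_)
  have hj' : j ≤ w := Nat.lt_succ_iff.mp (Finset.mem_range.mp hj)
  rw [norm_mul, norm_pow]
  gcongr

theorem stripDecay_mul_polyFun {w : ℕ} {F φ : ℍ → ℂ} (hF : ExpDecay F) (hφ : IsPolyFun w φ) :
    StripDecay (F * φ) := by
  obtain ⟨c, B, C, hc, hF⟩ := hF.exists_bound
  obtain ⟨K, hK0, hK⟩ := hφ.norm_le
  intro A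
  refine ⟨max B (max 1 |A|), |C| * K * 2 ^ w * (w.factorial * (1 / (c / 2)) ^ w), c / 2,
    by positivity, fun τ hre him => ?_⟩
  have hB : B ≤ τ.im := le_trans (le_max_left _ _) him
  have h1 : 1 ≤ τ.im := le_trans (le_trans (le_max_left _ _) (le_max_right _ _)) him
  have hA : |A| ≤ τ.im := le_trans (le_trans (le_max_right _ _) (le_max_right _ _)) him
  have him' : |(τ : ℂ).im| = τ.im := abs_of_pos τ.im_pos
  have hnorm1 : 1 ≤ ‖(τ : ℂ)‖ := le_trans h1 (by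
    have := Complex.abs_im_le_norm (τ : ℂ)
    rwa [him'] at this)
  have hnorm2 : ‖(τ : ℂ)‖ ≤ 2 * τ.im := by
    calc ‖(τ : ℂ)‖ ≤ |(τ : ℂ).re| + |(τ : ℂ).im| := Complex.norm_le_abs_re_add_abs_im _
      _ ≤ |A| + τ.im := by
          rw [him']
          have : |(τ : ℂ).re| ≤ |A| := hre.trans (le_abs_self A)
          linarith
      _ ≤ 2 * τ.im := by linarith
  have hpow := pow_le_const_mul_exp w (c := c / 2) (by positivity) (t := τ.im) τ.im_pos.le
  have hexp : Real.exp (-c * τ.im) * Real.exp (c / 2 * τ.im) = Real.exp (-(c / 2) * τ.im) := by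
    rw [← Real.exp_add]; congr 1; ring
  rw [Pi.mul_apply, norm_mul]
  calc ‖F τ‖ * ‖φ τ‖ ≤ (C * Real.exp (-c * τ.im)) * (K * ‖(τ : ℂ)‖ ^ w) := by
        gcongr
        · exact (norm_nonneg _).trans (hF τ hB)
        · exact hF τ hB
        · exact hK τ hnorm1
    _ ≤ (|C| * Real.exp (-c * τ.im)) * (K * (2 * τ.im) ^ w) := by
        gcongr
        exact le_abs_self C
    _ = |C| * K * 2 ^ w * (Real.exp (-c * τ.im) * τ.im ^ w) := by rw [mul_pow]; ring
    _ ≤ |C| * K * 2 ^ w * (Real.exp (-c * τ.im) *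
          ((w.factorial * (1 / (c / 2)) ^ w) * Real.exp (c / 2 * τ.im))) := by
        gcongr
    _ = |C| * K * 2 ^ w * (w.factorial * (1 / (c / 2)) ^ w) * Real.exp (-(c / 2) * τ.im) := by
        rw [← hexp]; ring

theorem StripDecay.const_smul {H : ℍ → ℂ} (h : StripDecay H) (a : ℂ) : StripDecay (a • H) := by
  intro A
  obtain ⟨B, C, c, hc, hb⟩ := h A
  refine ⟨B, ‖a‖ * C, c, hc, fun τ hre him => ?_⟩
  rw [Pi.smul_apply, smul_eq_mul, norm_mul, mul_assoc]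
  gcongr
  exact hb τ hre him

theorem StripDecay.add {H H' : ℍ → ℂ} (h : StripDecay H) (h' : StripDecay H') :
    StripDecay (H + H') := by
  intro A
  obtain ⟨B, C, c, hc, hb⟩ := h A
  obtain ⟨B', C', c', hc', hb'⟩ := h' A
  refine ⟨max (max B B') 0, |C| + |C'|, min c c', lt_min hc hc', fun τ hre him => ?_⟩
  have hB : B ≤ τ.im := le_trans (le_trans (le_max_left _ _) (le_max_left _ _)) him
  have hB' : B' ≤ τ.im := le_trans (le_trans (le_max_right _ _) (le_max_left _ _)) him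
  have h0 : 0 ≤ τ.im := τ.im_pos.le
  have e1 : Real.exp (-c * τ.im) ≤ Real.exp (-(min c c') * τ.im) := by
    apply Real.exp_le_exp.mpr
    have : min c c' ≤ c := min_le_left _ _
    nlinarith
  have e2 : Real.exp (-c' * τ.im) ≤ Real.exp (-(min c c') * τ.im) := by
    apply Real.exp_le_exp.mpr
    have : min c c' ≤ c' := min_le_right _ _
    nlinarith
  rw [Pi.add_apply]
  calc ‖H τ + H' τ‖ ≤ ‖H τ‖ + ‖H' τ‖ := norm_add_le _ _
    _ ≤ C * Real.exp (-c * τ.im) + C' * Real.exp (-c' * τ.im) := add_le_add (hb τ hre hB) (hb' τ hre hB')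
    _ ≤ |C| * Real.exp (-c * τ.im) + |C'| * Real.exp (-c' * τ.im) := by
        gcongr <;> exact le_abs_self _
    _ ≤ |C| * Real.exp (-(min c c') * τ.im) + |C'| * Real.exp (-(min c c') * τ.im) := by
        gcongr
    _ = _ := by ring

theorem IsPolyFun.mdifferentiable {w : ℕ} {φ : ℍ → ℂ} (h : IsPolyFun w φ) :
    MDifferentiable 𝓘(ℂ) 𝓘(ℂ) φ := by
  obtain ⟨p, -, hφ⟩ := h
  have : φ = (fun z : ℂ => p.eval z) ∘ ((↑) : ℍ → ℂ) := by funext z; simp [hφ]
  rw [this]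
  exact (p.differentiable.mdifferentiable).comp mdifferentiable_coe

theorem IsCuspidal.mul_isPolyFun {k : ℤ} {w : ℕ} (hk : k = w + 2) {F φ : ℍ → ℂ}
    (h : IsCuspidal k F) (hφ : IsPolyFun w φ) : IsDiff (F * φ) := by
  refine ⟨h.holo.mul hφ.mdifferentiable, fun δ => ?_⟩
  rw [mul_slash_two_toGL hk]
  exact (stripDecay_mul_polyFun (h.decay δ) (hφ.polyAct δ)).const_smul _

end Fermat.Agent.Lib.Helper3.MS

end
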