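/-
S22 (modular symbols): the period formalism for cuspidal differentials.
-/
import Mathlib
import Fermat.Agent.Lib.Helper3.S22Decay
import Fermat.Agent.Lib.Helper1.S22Analysis

set_option autoImplicit false

noncomputable section

namespace Fermat.Agent.Lib.Helper3.MS

open UpperHalfPlane ModularForm Complex Filter Topology
open scoped MatrixGroups Manifold

/-! ### Closure properties of `IsDiff` -/

theorem IsDiff.stripDecay {H : ℍ → ℂ} (h : IsDiff H) : StripDecay H := by
  have := h.decay 1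
  rwa [map_one, SlashAction.slash_one] at this

theorem IsDiff.slash {H : ℍ → ℂ} (h : IsDiff H) (δ : PosMat) : IsDiff (H ∣[(2 : ℤ)] toGL δ) :=
  ⟨h.holo.slash 2 (toGL δ), fun δ' => by
    rw [← SlashAction.slash_mul, ← map_mul]; exact h.decay (δ * δ')⟩

theorem IsDiff.slash_SL {H : ℍ → ℂ} (h : IsDiff H) (γ : SL(2, ℤ)) : IsDiff (H ∣[(2 : ℤ)] γ) := by
  rw [ModularForm.SL_slash, ← toGL_SLtoPos]
  exact h.slash _

theorem IsDiff.add {H H' : ℍ → ℂ} (h : IsDiff H) (h' : IsDiff H') : IsDiff (H + H') :=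
  ⟨h.holo.add h'.holo, fun δ => by
    rw [SlashAction.add_slash]; exact (h.decay δ).add (h'.decay δ)⟩

theorem IsDiff.smul {H : ℍ → ℂ} (h : IsDiff H) (c : ℂ) : IsDiff (c • H) :=
  ⟨h.holo.const_smul c, fun δ => by
    rw [smul_slash_toGL]; exact (h.decay δ).const_smul c⟩

theorem isDiff_zero : IsDiff (0 : ℍ → ℂ) := by
  refine ⟨mdifferentiable_const (c := (0 : ℂ)), fun δ => ?_⟩
  rw [SlashAction.zero_slash]
  intro A
  exact ⟨0, 0, 1, one_pos, fun τ _ _ => by simp⟩

/-! ### Basic properties of primitives -/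

theorem IsPrim.add {G G' H H' : ℍ → ℂ} (h : IsPrim G H) (h' : IsPrim G' H') :
    IsPrim (G + G') (H + H') := fun τ => by
  have := (h τ).add (h' τ)
  exact this

theorem IsPrim.const_smul {G H : ℍ → ℂ} (h : IsPrim G H) (c : ℂ) :
    IsPrim (c • G) (c • H) := fun τ => by
  have := (h τ).const_smul c
  exact this

theorem VertZero.add {G G' : ℍ → ℂ} (h : VertZero G) (h' : VertZero G') : VertZero (G + G') :=
  fun x => by simpa using (h x).add (h' x)

theorem VertZero.const_smul {G : ℍ → ℂ} (h : VertZero G) (c : ℂ) : VertZero (c • G) :=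
  fun x => by simpa using (h x).const_smul c

theorem IsDiff.Ginf_isPrim {H : ℍ → ℂ} (h : IsDiff H) : IsPrim (Ginf H) H :=
  MS.Ginf_isPrim h.holo h.stripDecay

theorem IsDiff.Ginf_vertZero {H : ℍ → ℂ} (h : IsDiff H) : VertZero (Ginf H) :=
  MS.Ginf_vertZero h.holo h.stripDecay

theorem Ginf_add {H H' : ℍ → ℂ} (h : IsDiff H) (h' : IsDiff H') :
    Ginf (H + H') = Ginf H + Ginf H' :=
  (h.add h').Ginf_isPrim.eq_of_vertZero (h.Ginf_isPrim.add h'.Ginf_isPrim)
    (h.add h').Ginf_vertZero (h.Ginf_vertZero.add h'.Ginf_vertZero)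

theorem Ginf_smul {H : ℍ → ℂ} (h : IsDiff H) (c : ℂ) : Ginf (c • H) = c • Ginf H :=
  (h.smul c).Ginf_isPrim.eq_of_vertZero (h.Ginf_isPrim.const_smul c)
    (h.smul c).Ginf_vertZero (h.Ginf_vertZero.const_smul c)

/-! ### Periods -/

theorem SL_smul_eq (γ : SL(2, ℤ)) (z : ℍ) : γ • z = (γ : GL (Fin 2) ℝ) • z := rfl

theorem det_SL_pos (γ : SL(2, ℤ)) : 0 < (((γ : GL (Fin 2) ℝ)).det : ℝ) := by
  rw [← toGL_SLtoPos]; exact toGL_det_pos _

theorem period_spec {H : ℍ → ℂ} (h : IsDiff H) (γ : SL(2, ℤ)) (z : ℍ) :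
    Ginf H (γ • z) = Ginf (H ∣[(2 : ℤ)] γ) z + period H γ := by
  have h1 : IsPrim (fun z => Ginf H (γ • z)) (H ∣[(2 : ℤ)] γ) := by
    have := h.Ginf_isPrim.comp_smul (γ : GL (Fin 2) ℝ) (det_SL_pos γ)
    exact this
  have h2 : IsPrim (Ginf (H ∣[(2 : ℤ)] γ)) (H ∣[(2 : ℤ)] γ) := (h.slash_SL γ).Ginf_isPrim
  obtain ⟨c, hc⟩ := h1.exists_const h2
  have hI := hc UpperHalfPlane.I
  have : period H γ = c := by
    unfold period
    rw [hI]; ring
  rw [this]
  exact hc z

theorem period_one (H : ℍ → ℂ) : period H 1 = 0 := by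
  unfold period
  rw [SlashAction.slash_one, one_smul, sub_self]

theorem period_mul {H : ℍ → ℂ} (h : IsDiff H) (γ γ' : SL(2, ℤ)) :
    period H (γ * γ') = period H γ + period (H ∣[(2 : ℤ)] γ) γ' := by
  have e1 := period_spec h (γ * γ') UpperHalfPlane.I
  have e2 := period_spec h γ (γ' • UpperHalfPlane.I)
  have e3 := period_spec (h.slash_SL γ) γ' UpperHalfPlane.I
  rw [mul_smul, e2, e3, SlashAction.slash_mul] at e1
  have := add_left_cancel (a := Ginf ((H ∣[(2 : ℤ)] γ) ∣[(2 : ℤ)] γ') UpperHalfPlane.I)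
    (b := period (H ∣[(2 : ℤ)] γ) γ' + period H γ) (c := period H (γ * γ')) (by rw [← e1]; ring)
  rw [← this]; ring

theorem period_inv {H : ℍ → ℂ} (h : IsDiff H) (γ : SL(2, ℤ)) :
    period H γ⁻¹ = - period (H ∣[(2 : ℤ)] γ⁻¹) γ := by
  have := period_mul h γ⁻¹ γ
  rw [inv_mul_cancel, period_one] at this
  exact eq_neg_of_add_eq_zero_left this.symm

theorem period_add {H H' : ℍ → ℂ} (h : IsDiff H) (h' : IsDiff H') (γ : SL(2, ℤ)) :
    period (H + H') γ = period H γ + period H' γ := by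
  unfold period
  rw [SlashAction.add_slash, Ginf_add h h', Ginf_add (h.slash_SL γ) (h'.slash_SL γ)]
  simp only [Pi.add_apply]
  ring

theorem period_smul {H : ℍ → ℂ} (h : IsDiff H) (c : ℂ) (γ : SL(2, ℤ)) :
    period (c • H) γ = c * period H γ := by
  unfold period
  rw [ModularForm.SL_smul_slash, Ginf_smul h, Ginf_smul (h.slash_SL γ)]
  simp only [Pi.smul_apply, smul_eq_mul]
  ring

theorem period_zero (γ : SL(2, ℤ)) : period (0 : ℍ → ℂ) γ = 0 := by
  have := period_smul isDiff_zero 0 γ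
  simpa using this

theorem period_sum {ι : Type*} (s : Finset ι) (H : ι → ℍ → ℂ) (h : ∀ i ∈ s, IsDiff (H i))
    (γ : SL(2, ℤ)) : period (∑ i ∈ s, H i) γ = ∑ i ∈ s, period (H i) γ := by
  classical
  induction s using Finset.induction_on with
  | empty => simp [period_zero]
  | insert i t hi IH =>
    rw [Finset.sum_insert hi, Finset.sum_insert hi, period_add (h i (Finset.mem_insert_self _ _)),
      IH (fun j hj => h j (Finset.mem_insert_of_mem hj))]
    have : ∀ (u : Finset ι), (∀ j ∈ u, IsDiff (H j)) → IsDiff (∑ j ∈ u, H j) := by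
      intro u
      induction u using Finset.induction_on with
      | empty => intro _; simpa using isDiff_zero
      | insert a u ha IHu =>
        intro hu
        rw [Finset.sum_insert ha]
        exact (hu a (Finset.mem_insert_self _ _)).add
          (IHu fun j hj => hu j (Finset.mem_insert_of_mem hj))
    exact this t fun j hj => h j (Finset.mem_insert_of_mem hj)

/-! ### Upper triangular matrices -/

/-- The action of an upper triangular matrix on a point of a vertical line. -/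
theorem toGL_upper_smul_vert (β : PosMat) (hβ : (β : Matrix (Fin 2) (Fin 2) ℤ) 1 0 = 0)
    (x t : ℝ) (ht : 0 < t) :
    toGL β • ofComplex ((x : ℂ) + (t : ℂ) * Complex.I)
      = ofComplex (((((β : Matrix (Fin 2) (Fin 2) ℤ) 0 0 : ℝ) * x
            + ((β : Matrix (Fin 2) (Fin 2) ℤ) 0 1 : ℝ))
            / ((β : Matrix (Fin 2) (Fin 2) ℤ) 1 1 : ℝ) : ℝ)
          + (((((β : Matrix (Fin 2) (Fin 2) ℤ) 0 0 : ℝ)
            / ((β : Matrix (Fin 2) (Fin 2) ℤ) 1 1 : ℝ)) * t : ℝ) : ℂ) * Complex.I) := by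
  set a : ℤ := (β : Matrix (Fin 2) (Fin 2) ℤ) 0 0 with ha
  set b : ℤ := (β : Matrix (Fin 2) (Fin 2) ℤ) 0 1 with hb
  set d : ℤ := (β : Matrix (Fin 2) (Fin 2) ℤ) 1 1 with hd
  have hdet : 0 < a * d := by
    have := posMat_det_pos β
    rw [Matrix.det_fin_two, hβ, mul_zero, sub_zero] at this
    exact this
  have hd0 : (d : ℝ) ≠ 0 := by
    intro h0
    have : d = 0 := by exact_mod_cast h0
    rw [this, mul_zero] at hdet
    exact lt_irrefl _ hdet
  have had : 0 < (a : ℝ) / d := by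
    have h1 : (0 : ℝ) < a * d := by exact_mod_cast hdet
    have h2 : (a : ℝ) / d = (a * d) / (d * d) := by field_simp
    rw [h2]
    exact div_pos h1 (mul_self_pos.mpr hd0)
  have him : 0 < ((x : ℂ) + (t : ℂ) * Complex.I).im := by simpa using ht
  have him' : 0 < (((((a : ℝ) * x + b) / d : ℝ) : ℂ)
      + ((((a : ℝ) / d) * t : ℝ) : ℂ) * Complex.I).im := by
    simpa using mul_pos had ht
  apply UpperHalfPlane.ext
  rw [coe_toGL_smul, num_toGL, denom_toGL, hβ, ofComplex_apply_of_im_pos him,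
    ofComplex_apply_of_im_pos him']
  have hd0' : (d : ℂ) ≠ 0 := by exact_mod_cast hd0
  simp only [Int.cast_zero, zero_mul, zero_add]
  rw [← ha, ← hb, ← hd]
  push_cast
  field_simp
  ring

theorem VertZero.comp_upper {G : ℍ → ℂ} (h : VertZero G) (β : PosMat)
    (hβ : (β : Matrix (Fin 2) (Fin 2) ℤ) 1 0 = 0) : VertZero (fun z => G (toGL β • z)) := by
  intro x
  set a : ℤ := (β : Matrix (Fin 2) (Fin 2) ℤ) 0 0 with ha
  set b : ℤ := (β : Matrix (Fin 2) (Fin 2) ℤ) 0 1 with hb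
  set d : ℤ := (β : Matrix (Fin 2) (Fin 2) ℤ) 1 1 with hd
  have hdet : 0 < a * d := by
    have := posMat_det_pos β
    rw [Matrix.det_fin_two, hβ, mul_zero, sub_zero] at this
    exact this
  have hd0 : (d : ℝ) ≠ 0 := by
    intro h0
    have : d = 0 := by exact_mod_cast h0
    rw [this, mul_zero] at hdet
    exact lt_irrefl _ hdet
  have had : 0 < (a : ℝ) / d := by
    have h1 : (0 : ℝ) < a * d := by exact_mod_cast hdet
    have h2 : (a : ℝ) / d = (a * d) / (d * d) := by field_simp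
    rw [h2]
    exact div_pos h1 (mul_self_pos.mpr hd0)
  have h1 := (h (((a : ℝ) * x + b) / d)).comp (tendsto_id.const_mul_atTop had)
  refine h1.congr' ?_
  filter_upwards [eventually_gt_atTop (0 : ℝ)] with t ht
  simp only [Function.comp_apply, id_eq]
  rw [toGL_upper_smul_vert β hβ x t ht]

/-- Upper triangular rule: `Ginf` commutes with the weight-2 slash by upper triangular matrices. -/
theorem Ginf_slash_upper {H : ℍ → ℂ} (h : IsDiff H) (β : PosMat)
    (hβ : (β : Matrix (Fin 2) (Fin 2) ℤ) 1 0 = 0) (z : ℍ) :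
    Ginf (H ∣[(2 : ℤ)] toGL β) z = Ginf H (toGL β • z) := by
  have key : Ginf (H ∣[(2 : ℤ)] toGL β) = fun z => Ginf H (toGL β • z) :=
    (h.slash β).Ginf_isPrim.eq_of_vertZero
      (h.Ginf_isPrim.comp_smul (toGL β) (toGL_det_pos β))
      (h.slash β).Ginf_vertZero (h.Ginf_vertZero.comp_upper β hβ)
  exact congrFun key z

theorem period_T {H : ℍ → ℂ} (h : IsDiff H) : period H ModularGroup.T = 0 := by
  unfold period
  have hT : ((SLtoPos ModularGroup.T : PosMat) : Matrix (Fin 2) (Fin 2) ℤ) 1 0 = 0 := by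
    rw [SLtoPos_coe, ModularGroup.coe_T]; rfl
  have := Ginf_slash_upper h (SLtoPos ModularGroup.T) hT UpperHalfPlane.I
  rw [toGL_SLtoPos] at this
  rw [ModularForm.SL_slash, this, SL_smul_eq, sub_self]

/-- Transport of periods through upper triangular matrices. -/
theorem period_slash_upper {H : ℍ → ℂ} (h : IsDiff H) (β β' : PosMat) (γ γ' : SL(2, ℤ))
    (hβ : (β : Matrix (Fin 2) (Fin 2) ℤ) 1 0 = 0) (hβ' : (β' : Matrix (Fin 2) (Fin 2) ℤ) 1 0 = 0)
    (hrel : β * SLtoPos γ = SLtoPos γ' * β') :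
    period (H ∣[(2 : ℤ)] toGL β) γ = period H γ' := by
  have hrel' : toGL β * (γ : GL (Fin 2) ℝ) = (γ' : GL (Fin 2) ℝ) * toGL β' := by
    rw [← toGL_SLtoPos, ← toGL_SLtoPos, ← map_mul, ← map_mul, hrel]
  unfold period
  -- first term
  have e1 : Ginf (H ∣[(2 : ℤ)] toGL β) (γ • UpperHalfPlane.I)
      = Ginf H (γ' • (toGL β' • UpperHalfPlane.I)) := by
    rw [Ginf_slash_upper h β hβ, SL_smul_eq, SL_smul_eq, ← mul_smul, ← mul_smul, hrel']
  -- second term
  have e2 : Ginf ((H ∣[(2 : ℤ)] toGL β) ∣[(2 : ℤ)] γ) UpperHalfPlane.I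
      = Ginf (H ∣[(2 : ℤ)] γ') (toGL β' • UpperHalfPlane.I) := by
    rw [ModularForm.SL_slash, ← SlashAction.slash_mul, hrel', SlashAction.slash_mul,
      ← ModularForm.SL_slash, Ginf_slash_upper (h.slash_SL γ') β' hβ']
  rw [e1, e2, period_spec h γ' (toGL β' • UpperHalfPlane.I)]
  unfold period
  ring

end Fermat.Agent.Lib.Helper3.MS

end
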