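import Mathlib
import Fermat.Prelude.Def_Algebra_PatchingDatum

set_option autoImplicit false

namespace Fermat.Agent.Lib.Helper3

open MvPowerSeries RingTheory.Sequence IsLocalRing

section Ideals

variable {R : Type} [CommRing R] {r : ℕ}

/-- monomials not involving the first `i` variables -/
def LowFree (i : ℕ) (m : Fin r →₀ ℕ) : Prop := ∀ j : Fin r, j.val < i → m j = 0

lemma lowFree_of_le {i : ℕ} {m n : Fin r →₀ ℕ} (h : n ≤ m) (hm : LowFree i m) : LowFree i n :=
  fun j hj => Nat.le_zero.mp ((h j).trans (hm j hj).le)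

/-- the ideal of power series all of whose `LowFree i` coefficients vanish -/
def lowIdeal (R : Type) [CommRing R] (r i : ℕ) : Ideal (MvPowerSeries (Fin r) R) where
  carrier := {z | ∀ m, LowFree i m → coeff m z = 0}
  add_mem' := by
    intro a b ha hb m hm
    rw [map_add, ha m hm, hb m hm, add_zero]
  zero_mem' := by
    intro m _
    simp
  smul_mem' := by
    intro c z hz m hm
    classical
    rw [smul_eq_mul, coeff_mul]
    refine Finset.sum_eq_zero fun p hp => ?_
    have hle : p.2 ≤ m := by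
      have hp' := Finset.HasAntidiagonal.mem_antidiagonal.mp hp
      rw [← hp']
      exact le_add_self
    rw [hz p.2 (lowFree_of_le hle hm), mul_zero]

lemma mem_lowIdeal {i : ℕ} {z : MvPowerSeries (Fin r) R} :
    z ∈ lowIdeal R r i ↔ ∀ m, LowFree i m → coeff m z = 0 := Iff.rfl

/-- the ideal generated by the first `i` variables -/
noncomputable def varIdeal (R : Type) [CommRing R] (r i : ℕ) : Ideal (MvPowerSeries (Fin r) R) :=
  Ideal.span {x | ∃ j : Fin r, j.val < i ∧ x = X j}

lemma X_mem_varIdeal {i : ℕ} (j : Fin r) (hj : j.val < i) :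
    (X j : MvPowerSeries (Fin r) R) ∈ varIdeal R r i :=
  Ideal.subset_span ⟨j, hj, rfl⟩

lemma varIdeal_mono {i i' : ℕ} (h : i ≤ i') : varIdeal R r i ≤ varIdeal R r i' :=
  Ideal.span_mono fun _ ⟨j, hj, hx⟩ => ⟨j, hj.trans_le h, hx⟩

lemma varIdeal_le_lowIdeal (i : ℕ) : varIdeal R r i ≤ lowIdeal R r i := by
  classical
  refine Ideal.span_le.mpr ?_
  rintro x ⟨j, hj, rfl⟩
  intro m hm
  rw [coeff_X, if_neg]
  intro h
  have := hm j hj
  rw [h] at this
  simp at this

lemma lowIdeal_le_varIdeal (i : ℕ) : lowIdeal R r i ≤ varIdeal R r i := by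
  classical
  induction i with
  | zero =>
    intro z hz
    have : z = 0 := by
      ext m
      rw [hz m (fun j hj => absurd hj (Nat.not_lt_zero _))]
      simp
    rw [this]
    exact Ideal.zero_mem _
  | succ i ih =>
    intro z hz
    by_cases hi : i < r
    · let k : Fin r := ⟨i, hi⟩
      let z' : MvPowerSeries (Fin r) R := fun m => if m k = 0 then coeff m z else 0
      have hz'coeff : ∀ m, coeff m z' = if m k = 0 then coeff m z else 0 := fun m => rfl
      have hz' : z' ∈ lowIdeal R r i := by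
        intro m hm
        rw [hz'coeff]
        split_ifs with hk
        · apply hz m
          intro j hj
          rcases Nat.lt_succ_iff_lt_or_eq.mp hj with h | h
          · exact hm j h
          · have : j = k := Fin.ext h
            rw [this]; exact hk
        · rfl
      have hdvd : X k ∣ (z - z') := by
        rw [X_dvd_iff]
        intro m hm
        rw [map_sub, hz'coeff, if_pos hm, sub_self]
      obtain ⟨w, hw⟩ := hdvd
      have hzeq : z = z' + X k * w := by rw [← hw]; ring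
      rw [hzeq]
      refine Ideal.add_mem _ (varIdeal_mono (Nat.le_succ i) (ih hz')) ?_
      exact Ideal.mul_mem_right _ _ (X_mem_varIdeal k (Nat.lt_succ_self i))
    · refine varIdeal_mono (Nat.le_succ i) (ih ?_)
      intro m hm
      apply hz m
      intro j _
      exact hm j (lt_of_lt_of_le j.isLt (not_lt.mp hi))

lemma varIdeal_eq_lowIdeal (i : ℕ) : varIdeal R r i = lowIdeal R r i :=
  le_antisymm (varIdeal_le_lowIdeal i) (lowIdeal_le_varIdeal i)

/-- `X k` is a nonzerodivisor modulo the first `i ≤ k` variables. -/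
lemma X_mul_mem_lowIdeal {i : ℕ} (k : Fin r) (hk : i ≤ k.val) {z : MvPowerSeries (Fin r) R}
    (h : X k * z ∈ lowIdeal R r i) : z ∈ lowIdeal R r i := by
  classical
  intro m hm
  have h1 : coeff (Finsupp.single k 1 + m) (X k * z) = 0 := by
    apply h
    intro j hj
    have hjk : j ≠ k := fun e => by
      rw [e] at hj; omega
    simp [hm j hj, hjk.symm]
  rw [X_def, coeff_add_monomial_mul, one_mul] at h1
  exact h1

/-- `C a` is a nonzerodivisor modulo the variables when `a` is. -/
lemma C_mul_mem_lowIdeal [IsDomain R] {i : ℕ} {a : R} (ha : a ≠ 0)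
    {z : MvPowerSeries (Fin r) R}
    (h : C a * z ∈ lowIdeal R r i) : z ∈ lowIdeal R r i := by
  intro m hm
  have h1 := h m hm
  rw [coeff_C_mul] at h1
  exact (mul_eq_zero.mp h1).resolve_left ha

end Ideals

section ParamList

variable {𝒪 : Type} [CommRing 𝒪] {r : ℕ}

/-- the list of variables of `𝒪⟦X₀,…,X_{r-1}⟧` -/
noncomputable def varList (𝒪 : Type) [CommRing 𝒪] (r : ℕ) : List (MvPowerSeries (Fin r) 𝒪) :=
  List.ofFn fun i : Fin r => (X i : MvPowerSeries (Fin r) 𝒪)

/-- the regular system of parameters `X₀,…,X_{r-1}, ϖ` of `𝒪⟦X₀,…,X_{r-1}⟧` -/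
noncomputable def paramList (r : ℕ) (ϖ : 𝒪) : List (MvPowerSeries (Fin r) 𝒪) :=
  varList 𝒪 r ++ [C ϖ]

@[simp] lemma varList_length : (varList 𝒪 r).length = r := by simp [varList]

@[simp] theorem paramList_length (ϖ : 𝒪) : (paramList r ϖ).length = r + 1 := by
  simp [paramList]

lemma ofList_take_varList (i : ℕ) :
    Ideal.ofList ((varList 𝒪 r).take i) = varIdeal 𝒪 r i := by
  unfold Ideal.ofList varIdeal
  congr 1
  ext x
  simp only [Set.mem_ofPred_eq, List.mem_take_iff_getElem, varList, List.getElem_ofFn,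
    List.length_ofFn]
  constructor
  · rintro ⟨j, hj, rfl⟩
    exact ⟨⟨j, (lt_min_iff.mp hj).2⟩, (lt_min_iff.mp hj).1, rfl⟩
  · rintro ⟨j, hj, rfl⟩
    exact ⟨j.val, lt_min_iff.mpr ⟨hj, j.isLt⟩, rfl⟩

lemma ofList_varList : Ideal.ofList (varList 𝒪 r) = varIdeal 𝒪 r r := by
  have h := ofList_take_varList (𝒪 := 𝒪) (r := r) r
  rwa [List.take_of_length_le (by simp)] at h

lemma smul_top_eq (I : Ideal (MvPowerSeries (Fin r) 𝒪)) :
    (I • (⊤ : Submodule (MvPowerSeries (Fin r) 𝒪) (MvPowerSeries (Fin r) 𝒪))) = I := by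
  rw [smul_eq_mul, Ideal.mul_top]

theorem varList_isWeaklyRegular :
    IsWeaklyRegular (MvPowerSeries (Fin r) 𝒪) (varList 𝒪 r) := by
  rw [isWeaklyRegular_iff_Fin]
  intro i
  rw [isSMulRegular_on_quot_iff_lsmul_comap_le, smul_top_eq, ofList_take_varList,
    varIdeal_eq_lowIdeal]
  intro z hz
  have hi : i.val < r := by simpa using i.isLt
  have hget : (varList 𝒪 r)[i] = X (⟨i.val, hi⟩ : Fin r) := by
    rw [Fin.getElem_fin]
    simp only [varList, List.getElem_ofFn]
  rw [Submodule.mem_comap, LinearMap.lsmul_apply, hget, smul_eq_mul] at hz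
  exact X_mul_mem_lowIdeal ⟨i.val, hi⟩ le_rfl hz

theorem paramList_isWeaklyRegular [IsDomain 𝒪] {ϖ : 𝒪} (hϖ : ϖ ≠ 0) :
    IsWeaklyRegular (MvPowerSeries (Fin r) 𝒪) (paramList r ϖ) := by
  rw [paramList, isWeaklyRegular_append_iff]
  refine ⟨varList_isWeaklyRegular, ?_⟩
  rw [isWeaklyRegular_singleton_iff, isSMulRegular_on_quot_iff_lsmul_comap_le, smul_top_eq,
    ofList_varList, varIdeal_eq_lowIdeal]
  intro z hz
  rw [Submodule.mem_comap, LinearMap.lsmul_apply, smul_eq_mul] at hz
  exact C_mul_mem_lowIdeal hϖ hz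

lemma ofList_paramList_eq_sup (ϖ : 𝒪) :
    Ideal.ofList (paramList r ϖ) = varIdeal 𝒪 r r ⊔ Ideal.span {C ϖ} := by
  rw [paramList, Ideal.ofList_append, ofList_varList, Ideal.ofList_singleton]

lemma mem_lowIdeal_top {z : MvPowerSeries (Fin r) 𝒪} :
    z ∈ lowIdeal 𝒪 r r ↔ constantCoeff z = 0 := by
  constructor
  · intro h
    rw [← coeff_zero_eq_constantCoeff]
    exact h 0 (fun _ _ => rfl)
  · intro h m hm
    have : m = 0 := by
      ext j
      exact hm j j.isLt
    rw [this, coeff_zero_eq_constantCoeff]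
    exact h

variable [IsDomain 𝒪] [IsDiscreteValuationRing 𝒪]

theorem ofList_paramList {ϖ : 𝒪} (hϖ : Irreducible ϖ) :
    Ideal.ofList (paramList r ϖ) = maximalIdeal (MvPowerSeries (Fin r) 𝒪) := by
  rw [ofList_paramList_eq_sup, varIdeal_eq_lowIdeal]
  apply le_antisymm
  · refine sup_le ?_ ?_
    · intro z hz
      rw [mem_lowIdeal_top] at hz
      rw [mem_maximalIdeal, mem_nonunits_iff, isUnit_iff_constantCoeff, hz]
      exact not_isUnit_zero
    · rw [Ideal.span_le, Set.singleton_subset_iff, SetLike.mem_coe, mem_maximalIdeal,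
        mem_nonunits_iff, isUnit_iff_constantCoeff, constantCoeff_C]
      exact hϖ.not_isUnit
  · intro z hz
    rw [mem_maximalIdeal, mem_nonunits_iff, isUnit_iff_constantCoeff] at hz
    have hz' : constantCoeff z ∈ maximalIdeal 𝒪 := hz
    rw [hϖ.maximalIdeal_eq, Ideal.mem_span_singleton] at hz'
    obtain ⟨c, hc⟩ := hz'
    have hdecomp : z = (z - C (constantCoeff z)) + C ϖ * C c := by
      rw [hc, map_mul]; ring
    rw [hdecomp]
    refine Ideal.add_mem _ (Ideal.mem_sup_left ?_) (Ideal.mem_sup_right ?_)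
    · rw [mem_lowIdeal_top, map_sub, constantCoeff_C, sub_self]
    · exact Ideal.mul_mem_right _ _ (Ideal.subset_span rfl)

theorem paramList_isRegular {ϖ : 𝒪} (hϖ : Irreducible ϖ) :
    RingTheory.Sequence.IsRegular (MvPowerSeries (Fin r) 𝒪) (paramList r ϖ) := by
  refine ⟨paramList_isWeaklyRegular hϖ.ne_zero, ?_⟩
  rw [smul_top_eq, ofList_paramList hϖ]
  exact (Ideal.IsMaximal.ne_top inferInstance).symm

end ParamList

section Patching

variable {𝒪 : Type} [CommRing 𝒪]
  {r : ℕ} {R : Type} [CommRing R] [Algebra 𝒪 R]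
  {M : Type} [AddCommGroup M] [Module R M]
  (L : Algebra.PatchingLevel 𝒪 r R M ⊥)

/-- the coordinate map `c ↦ ∑ φ(c i) • b i` -/
noncomputable def coordHom : (Fin L.d → MvPowerSeries (Fin r) 𝒪) →+ L.N where
  toFun c := ∑ i, L.φ (c i) • L.b i
  map_zero' := by simp
  map_add' := by
    intro c c'
    simp [add_smul, Finset.sum_add_distrib]

lemma coordHom_apply (c : Fin L.d → MvPowerSeries (Fin r) 𝒪) :
    coordHom L c = ∑ i, L.φ (c i) • L.b i := rfl

lemma coordHom_injective : Function.Injective (coordHom L) := by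
  rw [injective_iff_map_eq_zero]
  intro c hc
  have h := (L.b_rel c).mp hc
  funext i
  simpa using h i

lemma coordHom_surjective : Function.Surjective (coordHom L) := fun x => by
  obtain ⟨c, hc⟩ := L.b_span x
  exact ⟨c, hc.symm⟩

/-- `N` is free over `Λ` *through* `φ` -/
noncomputable def coordEquiv : (Fin L.d → MvPowerSeries (Fin r) 𝒪) ≃+ L.N :=
  AddEquiv.ofBijective (coordHom L) ⟨coordHom_injective L, coordHom_surjective L⟩

lemma coordEquiv_apply (c : Fin L.d → MvPowerSeries (Fin r) 𝒪) :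
    coordEquiv L c = ∑ i, L.φ (c i) • L.b i := rfl

lemma coordEquiv_smul (f : MvPowerSeries (Fin r) 𝒪) (c : Fin L.d → MvPowerSeries (Fin r) 𝒪) :
    coordEquiv L (f • c) = L.φ f • coordEquiv L c := by
  simp only [coordEquiv_apply, Pi.smul_apply, smul_eq_mul, map_mul, Finset.smul_sum, mul_smul]

theorem patching_finite : Module.Finite (MvPowerSeries (Fin r) 𝒪) L.N := by
  refine Module.Finite.of_surjective
    (Fintype.linearCombination (MvPowerSeries (Fin r) 𝒪) L.b) ?_
  intro x
  obtain ⟨c, hc⟩ := L.b_span x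
  refine ⟨fun i => L.φ (c i), ?_⟩
  rw [hc, Fintype.linearCombination_apply]

theorem patching_nontrivial [Nontrivial M] : Nontrivial L.N :=
  L.π_surjective.nontrivial

theorem patching_d_pos [Nontrivial M] : 0 < L.d := by
  have := patching_nontrivial L
  by_contra h
  have hd : L.d = 0 := by omega
  obtain ⟨x, y, hxy⟩ := exists_pair_ne L.N
  apply hxy
  obtain ⟨c, hc⟩ := L.b_span x
  obtain ⟨c', hc'⟩ := L.b_span y
  have : IsEmpty (Fin L.d) := by rw [hd]; infer_instance
  rw [hc, hc']
  simp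

theorem patching_phi_injective [Nontrivial M] : Function.Injective L.φ := by
  rw [injective_iff_map_eq_zero]
  intro f hf
  have hd := patching_d_pos L
  let c : Fin L.d → MvPowerSeries (Fin r) 𝒪 := fun i => if i = ⟨0, hd⟩ then f else 0
  have h0 : ∑ i, L.φ (c i) • L.b i = 0 := by
    refine Finset.sum_eq_zero fun i _ => ?_
    by_cases hi : i = ⟨0, hd⟩
    · simp [c, hi, hf]
    · simp [c, hi]
  have h := (L.b_rel c).mp h0 ⟨0, hd⟩
  simpa [c] using h

/-- `φ(X i)` is not a unit -/
theorem patching_phi_X_mem [Nontrivial M] [IsLocalRing 𝒪] (i : Fin r) :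
    L.φ (X i) ∈ maximalIdeal (MvPowerSeries (Fin r) 𝒪) := by
  rw [mem_maximalIdeal, mem_nonunits_iff]
  intro hu
  have h1 : IsUnit (L.ψ (L.φ (X i))) := hu.map L.ψ
  rw [L.ψ_φ_X i] at h1
  have : Subsingleton R := subsingleton_of_zero_eq_one (isUnit_zero_iff.mp h1)
  have : Subsingleton M := Module.subsingleton R M
  exact not_subsingleton M inferInstance

lemma patching_phi_C (a : 𝒪) : L.φ (C a) = C a := by
  have h := L.φ.commutes a
  rwa [← c_eq_algebraMap] at h

theorem pi_isWeaklyRegular (d : ℕ) {rs : List (MvPowerSeries (Fin r) 𝒪)}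
    (h : IsWeaklyRegular (MvPowerSeries (Fin r) 𝒪) rs) :
    IsWeaklyRegular (Fin d → MvPowerSeries (Fin r) 𝒪) rs := by
  have h1 : IsWeaklyRegular (TensorProduct (MvPowerSeries (Fin r) 𝒪) (MvPowerSeries (Fin r) 𝒪)
      (Fin d → MvPowerSeries (Fin r) 𝒪)) rs := h.isWeaklyRegular_rTensor
  exact (LinearEquiv.isWeaklyRegular_congr
    (TensorProduct.lid (MvPowerSeries (Fin r) 𝒪) (Fin d → MvPowerSeries (Fin r) 𝒪)) rs).mp h1

theorem patching_isWeaklyRegular_map {rs : List (MvPowerSeries (Fin r) 𝒪)}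
    (h : IsWeaklyRegular (MvPowerSeries (Fin r) 𝒪) rs) :
    IsWeaklyRegular L.N (rs.map L.φ) := by
  refine (AddEquiv.isWeaklyRegular_congr (e := coordEquiv L) ?_).mp (pi_isWeaklyRegular L.d h)
  exact List.forall₂_map_right_iff.mpr <| List.forall₂_same.mpr fun f _ x => coordEquiv_smul L f x

theorem patching_map_length (ϖ : 𝒪) : ((paramList r ϖ).map L.φ).length = r + 1 := by
  simp

variable [IsDomain 𝒪] [IsDiscreteValuationRing 𝒪] [Nontrivial M]

theorem patching_mem_maximalIdeal {ϖ : 𝒪} (hϖ : Irreducible ϖ) :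
    ∀ x ∈ (paramList r ϖ).map L.φ, x ∈ maximalIdeal (MvPowerSeries (Fin r) 𝒪) := by
  intro x hx
  rw [List.mem_map] at hx
  obtain ⟨y, hy, rfl⟩ := hx
  rw [paramList, List.mem_append, List.mem_singleton] at hy
  rcases hy with hy | rfl
  · rw [varList, List.mem_ofFn] at hy
    obtain ⟨i, rfl⟩ := hy
    exact patching_phi_X_mem L i
  · rw [patching_phi_C, mem_maximalIdeal, mem_nonunits_iff, isUnit_iff_constantCoeff,
      constantCoeff_C]
    exact hϖ.not_isUnit

theorem patching_isRegular {ϖ : 𝒪} (hϖ : Irreducible ϖ) :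
    RingTheory.Sequence.IsRegular L.N ((paramList r ϖ).map L.φ) := by
  have := patching_finite L
  have := patching_nontrivial L
  exact IsRegular.of_isWeaklyRegular_of_mem_maximalIdeal L.N (patching_mem_maximalIdeal L hϖ)
    (patching_isWeaklyRegular_map L (paramList_isWeaklyRegular hϖ.ne_zero))

end Patching

end Fermat.Agent.Lib.Helper3
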