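/-
S22 (modular symbols): the Eichler integral and its transformation behaviour.
-/
import Mathlib
import Fermat.Agent.Lib.Helper3.S22Periods
import Fermat.Agent.Lib.Helper8.S22Cuspidal
import Fermat.Agent.Lib.Helper8.S22Abstract

set_option autoImplicit false

noncomputable section

namespace Fermat.Agent.Lib.Helper3.MS

open UpperHalfPlane ModularForm Complex Filter Topology
open scoped MatrixGroups Manifold

/-- The kernel `u ↦ (u - c)^w`. -/
def kernelFun (w : ℕ) (c : ℂ) : ℍ → ℂ := fun u => ((u : ℂ) - c) ^ w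

theorem isPolyFun_kernelFun (w : ℕ) (c : ℂ) : IsPolyFun w (kernelFun w c) :=
  isPolyFun_sub_pow w c

/-- The Eichler integral `E_F(z) = ∫_{i∞}^z F(u) (u - z)^w du`. -/
def eichler (w : ℕ) (F : ℍ → ℂ) (z : ℍ) : ℂ :=
  Ginf (fun u : ℍ => F u * ((u : ℂ) - (z : ℂ)) ^ w) z

theorem eichler_eq (w : ℕ) (F : ℍ → ℂ) (z : ℍ) :
    eichler w F z = Ginf (F * kernelFun w (z : ℂ)) z := rfl

/-- Difference of two Möbius images. -/
theorem toGL_smul_sub_smul (δ : PosMat) (u z : ℍ) :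
    ((toGL δ • u : ℍ) : ℂ) - ((toGL δ • z : ℍ) : ℂ)
      = detC δ * ((u : ℂ) - (z : ℂ)) / (denom (toGL δ) u * denom (toGL δ) z) := by
  have hu := denom_ne_zero (toGL δ) u
  have hz := denom_ne_zero (toGL δ) z
  rw [coe_toGL_smul, coe_toGL_smul, div_sub_div _ _ hu hz]
  congr 1
  rw [num_toGL, num_toGL, denom_toGL, denom_toGL]
  unfold detC
  rw [Matrix.det_fin_two]
  push_cast
  ring

theorem polyAct_kernelFun (w : ℕ) (γ : SL(2, ℤ)) (z : ℍ) :
    polyAct w (SLtoPos γ) (kernelFun w ((γ • z : ℍ) : ℂ))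
      = ((denom (γ : GL (Fin 2) ℝ) z) ^ w)⁻¹ • kernelFun w (z : ℂ) := by
  funext u
  have hu := denom_ne_zero (toGL (SLtoPos γ)) u
  have hz := denom_ne_zero (toGL (SLtoPos γ)) z
  have hdet : detC (SLtoPos γ) = 1 := by simp [detC]
  rw [polyAct_apply, Pi.smul_apply, smul_eq_mul]
  unfold kernelFun
  rw [SL_smul_eq, ← toGL_SLtoPos, toGL_smul_sub_smul, hdet, one_mul, ← mul_pow, ← inv_pow,
    ← mul_pow]
  congr 1
  field_simp

theorem eichler_slash {k : ℤ} {w : ℕ} (hk : k = w + 2) {F : ℍ → ℂ} (hF : IsCuspidal k F)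
    (γ : SL(2, ℤ)) (hper : ∀ φ, IsPolyFun w φ → period (F * φ) γ = 0) :
    (eichler w F) ∣[(-(w : ℤ))] γ = eichler w (F ∣[k] γ) := by
  funext z
  have hz := denom_ne_zero (γ : GL (Fin 2) ℝ) z
  have hD : IsDiff (F * kernelFun w ((γ • z : ℍ) : ℂ)) :=
    hF.mul_isPolyFun hk (isPolyFun_kernelFun w _)
  have hD' : IsDiff ((F ∣[k] γ) * kernelFun w (z : ℂ)) :=
    (hF.slash_SL γ).mul_isPolyFun hk (isPolyFun_kernelFun w _)
  rw [ModularForm.SL_slash_apply, eichler_eq, eichler_eq, period_spec hD γ z,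
    hper _ (isPolyFun_kernelFun w _), add_zero, mul_slash_two_SL hk, polyAct_kernelFun,
    mul_smul_comm, Ginf_smul hD', Pi.smul_apply, smul_eq_mul, neg_neg, zpow_natCast]
  field_simp

/-! ### Reduction of general polynomial functions to monomials -/

theorem IsPolyFun.eq_sum {w : ℕ} {φ : ℍ → ℂ} (h : IsPolyFun w φ) :
    ∃ c : ℕ → ℂ, φ = ∑ j ∈ Finset.range (w + 1), c j • (fun z : ℍ => (z : ℂ) ^ j) := by
  obtain ⟨p, hp, hφ⟩ := h
  refine ⟨fun j => p.coeff j, ?_⟩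
  funext z
  rw [hφ, Polynomial.eval_eq_sum_range' (Nat.lt_succ_of_le hp), Finset.sum_apply]
  apply Finset.sum_congr rfl
  intro j _
  simp

theorem isPolyFun_monomial {w j : ℕ} (hj : j ≤ w) : IsPolyFun w (fun z : ℍ => (z : ℂ) ^ j) :=
  (isIntPolyFun_monomial hj).isPolyFun

/-- If the periods against all monomials vanish, so do the periods against all polynomial
functions. -/
theorem period_polyFun_eq_zero {k : ℤ} {w : ℕ} (hk : k = w + 2) {F : ℍ → ℂ}
    (hF : IsCuspidal k F) (γ : SL(2, ℤ))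
    (h : ∀ j : ℕ, j ≤ w → period (F * fun z : ℍ => (z : ℂ) ^ j) γ = 0)
    (φ : ℍ → ℂ) (hφ : IsPolyFun w φ) : period (F * φ) γ = 0 := by
  obtain ⟨c, rfl⟩ := hφ.eq_sum
  have e : F * ∑ j ∈ Finset.range (w + 1), c j • (fun z : ℍ => (z : ℂ) ^ j)
      = ∑ j ∈ Finset.range (w + 1), c j • (F * fun z : ℍ => (z : ℂ) ^ j) := by
    rw [Finset.mul_sum]
    apply Finset.sum_congr rfl
    intro j _
    rw [mul_smul_comm]
  have hD : ∀ j ∈ Finset.range (w + 1), IsDiff (F * fun z : ℍ => (z : ℂ) ^ j) := fun j hj =>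
    hF.mul_isPolyFun hk (isPolyFun_monomial (Nat.lt_succ_iff.mp (Finset.mem_range.mp hj)))
  rw [e, period_sum _ _ (fun j hj => (hD j hj).smul (c j))]
  apply Finset.sum_eq_zero
  intro j hj
  rw [period_smul (hD j hj), h j (Nat.lt_succ_iff.mp (Finset.mem_range.mp hj)), mul_zero]

/-! ### The Eichler integral of a cusp form with vanishing periods is a cusp form of weight `-w` -/

open CongruenceSubgroup

section CuspForm

variable {N : ℕ} [NeZero N] {k : ℤ} {w : ℕ}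

/-- The Eichler integral of a cusp form all of whose periods vanish, as a cusp form of
weight `-w`. -/
def eichlerCuspForm (hk : k = w + 2) (f : CuspForm (Gamma0 N) k)
    (hper : ∀ (g γ : SL(2, ℤ)) (φ : ℍ → ℂ), IsPolyFun w φ → period ((⇑f ∣[k] g) * φ) γ = 0)
    (hholo : ∀ F : ℍ → ℂ, IsCuspidal k F → MDifferentiable 𝓘(ℂ) 𝓘(ℂ) (eichler w F))
    (hzero : ∀ F : ℍ → ℂ, IsCuspidal k F → IsZeroAtImInfty (eichler w F)) :
    CuspForm (Gamma0 N) (-(w : ℤ)) where
  toFun := eichler w ⇑f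
  slash_action_eq' := by
    intro γ hγ
    obtain ⟨γ₀, hγ₀, rfl⟩ := Subgroup.mem_map.mp hγ
    have h1 : (⇑f : ℍ → ℂ) ∣[k] γ₀ = ⇑f :=
      SlashInvariantFormClass.slash_action_eq f _ (Subgroup.mem_map_of_mem _ hγ₀)
    have h2 := eichler_slash hk (isCuspidal_cuspForm f) γ₀ (fun φ hφ => by
      have := hper 1 γ₀ φ hφ
      rwa [SlashAction.slash_one] at this)
    rw [h1] at h2
    exact h2
  holo' := hholo _ (isCuspidal_cuspForm f)
  zero_at_cusps' := by
    intro c hc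
    have hc' : IsCusp c 𝒮ℒ := (Subgroup.IsArithmetic.isCusp_iff_isCusp_SL2Z _).mp hc
    rw [OnePoint.isZeroAt_iff_forall_SL2Z hc']
    intro γ _
    have h2 := eichler_slash hk (isCuspidal_cuspForm f) γ (fun φ hφ => by
      have := hper 1 γ φ hφ
      rwa [SlashAction.slash_one] at this)
    rw [h2]
    exact hzero _ ((isCuspidal_cuspForm f).slash_SL γ)

/-- Separation, modulo the three analytic inputs on the Eichler integral. -/
theorem eq_zero_of_periods_eq_zero_aux (hk : k = w + 2) (f : CuspForm (Gamma0 N) k)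
    (h : ∀ (g γ : SL(2, ℤ)) (j : ℕ), j ≤ w →
      period ((⇑f ∣[k] g) * fun z : ℍ => (z : ℂ) ^ j) γ = 0)
    (hholo : ∀ F : ℍ → ℂ, IsCuspidal k F → MDifferentiable 𝓘(ℂ) 𝓘(ℂ) (eichler w F))
    (hzero : ∀ F : ℍ → ℂ, IsCuspidal k F → IsZeroAtImInfty (eichler w F))
    (hinj : ∀ F : ℍ → ℂ, IsCuspidal k F → eichler w F = 0 → F = 0) : f = 0 := by
  have hper : ∀ (g γ : SL(2, ℤ)) (φ : ℍ → ℂ), IsPolyFun w φ →
      period ((⇑f ∣[k] g) * φ) γ = 0 := fun g γ φ hφ =>
    period_polyFun_eq_zero hk ((isCuspidal_cuspForm f).slash_SL g) γ (h g γ) φ hφ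
  have h0 : eichlerCuspForm hk f hper hholo hzero = 0 :=
    Fermat.Agent.Lib.Helper8.cuspForm_eq_zero_of_nonpos (by simp) _
  have h1 : eichler w ⇑f = 0 := by
    funext z
    have := congrArg (fun F : CuspForm (Gamma0 N) (-(w : ℤ)) => F z) h0
    exact this
  have h2 := hinj _ (isCuspidal_cuspForm f) h1
  exact DFunLike.coe_injective h2

end CuspForm

end Fermat.Agent.Lib.Helper3.MS

end
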